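import Mathlib.LinearAlgebra.Matrix.Charpoly.Coeff
import Mathlib.LinearAlgebra.Matrix.ToLin
import Mathlib.Order.Atoms.Finite
import Fermat.Agent.RepTheory.MatrixRep

/-!
# Two-dimensional representations from quadratic relations

Let `V` be a nonzero finite-dimensional representation `ρ` of a group `G` over an algebraically
closed field `k`, and `d : G →* k` a character such that for every `g` the operator
`ρ g + d g • ρ g⁻¹` is a scalar `t g`.  Then there is a two-dimensional representation with
trace `t` and determinant `d`.  (An irreducible subrepresentation has dimension at most two.)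

The set of elements satisfying the relation is closed under powers, so it suffices to know the
relation for generators of cyclic subgroups (Frobenius density).
-/

namespace Fermat.Agent.EigenRep

open Matrix

variable {G : Type*} [Group G] {k : Type*} [Field k]

section Relation

variable {V : Type*} [AddCommGroup V] [Module k V]

/-- `g` satisfies a quadratic relation with constant term `d g` on `ρ`. -/
def SatisfiesQuadratic (ρ : G →* Module.End k V) (d : G →* k) (g : G) : Prop :=
  ∃ c : k, ρ g + d g • ρ g⁻¹ = c • (1 : Module.End k V)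

/-- The relation `ρ g ^ 2 - a • ρ g + d g = 0` gives `ρ g + d g • ρ g⁻¹ = a`. -/
lemma satisfiesQuadratic_of_sq {ρ : G →* Module.End k V} {d : G →* k} {g : G} {a : k}
    (h : ρ g * ρ g - a • ρ g + d g • (1 : Module.End k V) = 0) :
    ρ g + d g • ρ g⁻¹ = a • (1 : Module.End k V) := by
  have hinv : ρ g * ρ g⁻¹ = 1 := by rw [← map_mul, mul_inv_cancel, map_one]
  have := congrArg (· * ρ g⁻¹) h
  simp only [add_mul, sub_mul, smul_mul_assoc, one_mul, zero_mul, mul_assoc, hinv, mul_one] at this
  rw [sub_add_eq_add_sub, sub_eq_zero] at this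
  exact this

/-- The quadratic relation only depends on `ρ g`, `ρ g⁻¹` and `d g`. -/
lemma SatisfiesQuadratic.congr {ρ : G →* Module.End k V} {d : G →* k} {g g' : G}
    (h : SatisfiesQuadratic ρ d g) (hρ : ρ g' = ρ g) (hρ' : ρ g'⁻¹ = ρ g⁻¹) (hd : d g' = d g) :
    SatisfiesQuadratic ρ d g' := by
  obtain ⟨c, hc⟩ := h
  exact ⟨c, by rw [hρ, hρ', hd, hc]⟩

/-- Quadratic relations pass to powers. -/
lemma SatisfiesQuadratic.pow {ρ : G →* Module.End k V} {d : G →* k} {g : G}
    (h : SatisfiesQuadratic ρ d g) : ∀ n : ℕ, SatisfiesQuadratic ρ d (g ^ n)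
  | 0 => ⟨2, by simp [two_smul]⟩
  | 1 => by simpa using h
  | n + 2 => by
    obtain ⟨c, hc⟩ := h
    obtain ⟨a, ha⟩ := SatisfiesQuadratic.pow (ρ := ρ) (d := d) (g := g) ⟨c, hc⟩ (n + 1)
    obtain ⟨b, hb⟩ := SatisfiesQuadratic.pow (ρ := ρ) (d := d) (g := g) ⟨c, hc⟩ n
    refine ⟨c * a - d g * b, ?_⟩
    have key : (ρ g + d g • ρ g⁻¹) * (ρ (g ^ (n + 1)) + d (g ^ (n + 1)) • ρ (g ^ (n + 1))⁻¹) =
        (ρ (g ^ (n + 2)) + d (g ^ (n + 2)) • ρ (g ^ (n + 2))⁻¹) +
          d g • (ρ (g ^ n) + d (g ^ n) • ρ (g ^ n)⁻¹) := by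
      have e1 : g * g ^ (n + 1) = g ^ (n + 2) := (pow_succ' g (n + 1)).symm
      have e2 : g⁻¹ * (g ^ (n + 1))⁻¹ = (g ^ (n + 2))⁻¹ := by
        rw [← _root_.mul_inv_rev, ← pow_succ]
      have e3 : g⁻¹ * g ^ (n + 1) = g ^ n := by rw [pow_succ', inv_mul_cancel_left]
      have e4 : g * (g ^ (n + 1))⁻¹ = (g ^ n)⁻¹ := by
        rw [pow_succ, _root_.mul_inv_rev, mul_inv_cancel_left]
      have d1 : d g * d (g ^ (n + 1)) = d (g ^ (n + 2)) := by rw [← map_mul, e1]
      have d2 : d g * d (g ^ n) = d (g ^ (n + 1)) := by rw [← map_mul, ← pow_succ']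
      simp only [mul_add, add_mul, smul_mul_assoc, mul_smul_comm, smul_smul, ← map_mul,
        e1, e2, e3, e4, smul_add, d2]
      rw [show d (g ^ (n + 1) * g) = d (g ^ (n + 2)) by rw [← pow_succ]]
      module
    rw [hc, ha, hb, smul_mul_assoc, one_mul, smul_smul, smul_smul] at key
    rw [sub_smul, eq_sub_iff_add_eq]
    exact key.symm

end Relation

section Bound

variable {n : ℕ}

/-- Pairs `(x, x')` in the span of the `(R g, d g • R g⁻¹)`. -/
private def adjointPairs (R : G →* Matrix (Fin n) (Fin n) k) (d : G →* k) :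
    Submodule k (Matrix (Fin n) (Fin n) k × Matrix (Fin n) (Fin n) k) :=
  Submodule.span k (Set.range fun g => (R g, d g • R g⁻¹))

/-- An irreducible representation with all quadratic relations has dimension at most two. -/
theorem le_two_of_isFull (R : G →* Matrix (Fin n) (Fin n) k) (d : G →* k)
    (hR : RepTheory.IsFull R)
    (h : ∀ g, ∃ c : k, R g + d g • R g⁻¹ = c • (1 : Matrix (Fin n) (Fin n) k)) : n ≤ 2 := by
  by_contra hn
  push Not at hn
  set S := adjointPairs R d with hS
  have hscalar : ∀ p ∈ S, ∃ c : k, p.1 + p.2 = c • (1 : Matrix (Fin n) (Fin n) k) := by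
    intro p hp
    induction hp using Submodule.span_induction with
    | mem x hx => obtain ⟨g, rfl⟩ := hx; exact h g
    | zero => exact ⟨0, by simp⟩
    | add x y _ _ hx hy =>
      obtain ⟨a, ha⟩ := hx
      obtain ⟨b, hb⟩ := hy
      exact ⟨a + b, by rw [Prod.fst_add, Prod.snd_add, add_smul, ← ha, ← hb]; abel⟩
    | smul a x _ hx =>
      obtain ⟨b, hb⟩ := hx
      exact ⟨a * b, by rw [Prod.smul_fst, Prod.smul_snd, ← smul_add, hb, smul_smul]⟩
  have hfst : ∀ M, ∃ M', (M, M') ∈ S := by
    intro M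
    have hM : M ∈ S.map (LinearMap.fst k _ _) := by
      rw [hS, adjointPairs, Submodule.map_span, ← Set.range_comp]
      change M ∈ Submodule.span k (Set.range R)
      rw [hR]; trivial
    obtain ⟨⟨a, b⟩, hab, rfl⟩ := hM
    exact ⟨b, hab⟩
  have hmul : ∀ p ∈ S, ∀ q ∈ S, (p.1 * q.1, q.2 * p.2) ∈ S := by
    intro p hp q hq
    induction hp using Submodule.span_induction with
    | mem x hx =>
      obtain ⟨g, rfl⟩ := hx
      induction hq using Submodule.span_induction with
      | mem y hy =>
        obtain ⟨g', rfl⟩ := hy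
        refine Submodule.subset_span ⟨g * g', ?_⟩
        simp only [map_mul, _root_.mul_inv_rev, smul_mul_assoc, mul_smul_comm, smul_smul]
      | zero => simp only [Prod.fst_zero, Prod.snd_zero, mul_zero, zero_mul]; exact S.zero_mem
      | add y z _ _ hy hz =>
        simpa only [Prod.fst_add, Prod.snd_add, mul_add, add_mul, Prod.mk_add_mk] using
          S.add_mem hy hz
      | smul a y _ hy =>
        have := S.smul_mem a hy
        simp only [Prod.smul_fst, Prod.smul_snd, mul_smul_comm, smul_mul_assoc, Prod.smul_mk]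
          at this ⊢
        rwa [smul_comm (d g) a]
    | zero => simp only [Prod.fst_zero, Prod.snd_zero, mul_zero, zero_mul]; exact S.zero_mem
    | add y z _ _ hy hz =>
      simpa only [Prod.fst_add, Prod.snd_add, mul_add, add_mul, Prod.mk_add_mk] using
        S.add_mem hy hz
    | smul a y _ hy =>
      simpa only [Prod.smul_fst, Prod.smul_snd, mul_smul_comm, smul_mul_assoc, Prod.smul_mk,
        smul_comm] using
        S.smul_mem a hy
  let i0 : Fin n := ⟨0, by omega⟩
  let i1 : Fin n := ⟨1, by omega⟩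
  let i2 : Fin n := ⟨2, by omega⟩
  obtain ⟨X', hX⟩ := hfst (Matrix.single i0 i1 1)
  obtain ⟨Y', hY⟩ := hfst (Matrix.single i1 i2 1)
  obtain ⟨a, ha⟩ := hscalar _ hX
  obtain ⟨b, hb⟩ := hscalar _ hY
  obtain ⟨c, hc⟩ := hscalar _ (hmul _ hX _ hY)
  dsimp only at ha hb hc
  rw [← eq_sub_iff_add_eq'] at ha hb
  rw [ha, hb] at hc
  have h01 : i0 ≠ i1 := by simp [i0, i1]
  have h02 : i0 ≠ i2 := by simp [i0, i2]
  have h12 : i1 ≠ i2 := by simp [i1, i2]
  have := congrFun (congrFun hc i0) i2
  simp [sub_mul, mul_sub, h02, h12, h01.symm, h02.symm] at this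

end Bound

section TwoDim

/-- For `2 × 2` matrices that are not scalar, a quadratic relation is the characteristic one. -/
lemma det_trace_of_not_scalar (A : Matrix (Fin 2) (Fin 2) k) {t e : k}
    (hA : ∀ c : k, A ≠ c • 1) (h : A * A - t • A + e • 1 = 0) : A.trace = t ∧ A.det = e := by
  have hCH : A * A - A.trace • A + A.det • (1 : Matrix (Fin 2) (Fin 2) k) = 0 := by
    ext i j
    fin_cases i <;> fin_cases j <;>
      simp [Matrix.mul_apply, Fin.sum_univ_two, Matrix.trace_fin_two, Matrix.det_fin_two] <;> ring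
  have hdiff : (A.trace - t) • A = (A.det - e) • (1 : Matrix (Fin 2) (Fin 2) k) := by
    rw [sub_smul, sub_smul]
    have := h.trans hCH.symm
    linear_combination (norm := module) this
  have ht : A.trace = t := by
    by_contra hne
    refine hA ((A.trace - t)⁻¹ * (A.det - e)) ?_
    rw [← smul_smul, ← hdiff, smul_smul, inv_mul_cancel₀ (sub_ne_zero.2 hne), one_smul]
  refine ⟨ht, ?_⟩
  rw [ht, sub_self, zero_smul] at hdiff
  have := congrFun (congrFun hdiff 0) 0
  simp at this
  exact sub_eq_zero.1 this.symm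

end TwoDim

/-- A full two-dimensional representation with quadratic relations has determinant `d` and trace the
scalar of the relation. -/
theorem det_trace_of_isFull (R : G →* Matrix (Fin 2) (Fin 2) k) (d : G →* k)
    (hfull : RepTheory.IsFull R)
    (hex : ∀ g, ∃ c : k, R g + d g • R g⁻¹ = c • (1 : Matrix (Fin 2) (Fin 2) k)) :
    ∀ g, (R g).det = d g ∧
      ∀ c, R g + d g • R g⁻¹ = c • (1 : Matrix (Fin 2) (Fin 2) k) → (R g).trace = c := by
  have hns : ∀ g, (∀ s : k, R g ≠ s • 1) → ∀ c, R g + d g • R g⁻¹ = c • 1 →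
      (R g).trace = c ∧ (R g).det = d g := by
    intro g hg c hc
    refine det_trace_of_not_scalar _ hg ?_
    have hinv : R g⁻¹ * R g = 1 := by rw [← map_mul, inv_mul_cancel, map_one]
    have := congrArg (· * R g) hc
    simp only [add_mul, smul_mul_assoc, hinv, one_mul] at this
    rw [← this]; abel
  obtain ⟨h0, hh0⟩ : ∃ g, ∀ s : k, R g ≠ s • 1 := by
    by_contra hall
    push Not at hall
    have : (Matrix.single (0 : Fin 2) (1 : Fin 2) (1 : k)) ∈ Submodule.span k (Set.range R) := by
      rw [hfull]; trivial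
    have hle : Submodule.span k (Set.range R) ≤ Submodule.span k {1} := by
      rw [Submodule.span_le]
      rintro _ ⟨g, rfl⟩
      obtain ⟨s, hs⟩ := hall g
      exact Submodule.mem_span_singleton.2 ⟨s, hs.symm⟩
    obtain ⟨s, hs⟩ := Submodule.mem_span_singleton.1 (hle this)
    simpa using congrFun (congrFun hs 0) 1
  intro g
  by_cases hg : ∀ s : k, R g ≠ s • 1
  · obtain ⟨c, hc⟩ := hex g
    exact ⟨(hns g hg c hc).2, fun c' hc' => (hns g hg c' hc').1⟩
  push Not at hg
  obtain ⟨s, hs⟩ := hg
  have hs0 : s ≠ 0 := by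
    rintro rfl
    have : R g * R g⁻¹ = 1 := by rw [← map_mul, mul_inv_cancel, map_one]
    rw [hs, zero_smul, zero_mul] at this
    exact zero_ne_one this
  have hgh : ∀ u : k, R (g * h0) ≠ u • 1 := by
    intro u hu
    rw [map_mul, hs, smul_mul_assoc, one_mul] at hu
    refine hh0 (s⁻¹ * u) ?_
    rw [← smul_smul, ← hu, smul_smul, inv_mul_cancel₀ hs0, one_smul]
  obtain ⟨c1, hc1⟩ := hex h0
  obtain ⟨c2, hc2⟩ := hex (g * h0)
  have h0d := (hns h0 hh0 c1 hc1).2
  have ghd := (hns (g * h0) hgh c2 hc2).2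
  have hd0 : d h0 ≠ 0 := fun h0' => by
    have : d h0 * d h0⁻¹ = 1 := by rw [← map_mul, mul_inv_cancel, map_one]
    rw [h0', zero_mul] at this
    exact zero_ne_one this
  have hsq : s ^ 2 = d g := by
    rw [map_mul, map_mul, Matrix.det_mul, h0d, hs, Matrix.det_smul, Matrix.det_one,
      Fintype.card_fin, mul_one] at ghd
    exact mul_right_cancel₀ hd0 ghd
  refine ⟨by rw [hs, Matrix.det_smul, Matrix.det_one, Fintype.card_fin, mul_one, hsq],
    fun c hc => ?_⟩
  have hinv : R g⁻¹ = s⁻¹ • 1 := by
    have : R g * R g⁻¹ = 1 := by rw [← map_mul, mul_inv_cancel, map_one]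
    rw [hs, smul_mul_assoc, one_mul] at this
    rw [← this, smul_smul, inv_mul_cancel₀ hs0, one_smul]
  have := congrFun (congrFun hc 0) 0
  rw [hinv, hs, ← hsq] at this
  simp at this
  rw [hs, Matrix.trace_smul, Matrix.trace_one, Fintype.card_fin, smul_eq_mul, ← this]
  field_simp
  ring

/-- Matrix form of the extraction: a full representation with quadratic relations. -/
theorem exists_twoDim_of_isFull {n : ℕ} (R : G →* Matrix (Fin n) (Fin n) k) (d : G →* k)
    (hn1 : 0 < n) (hfull : RepTheory.IsFull R)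
    (hex : ∀ g, ∃ c : k, R g + d g • R g⁻¹ = c • (1 : Matrix (Fin n) (Fin n) k)) :
    ∃ r : G →* Matrix (Fin 2) (Fin 2) k,
      (∀ g c, R g + d g • R g⁻¹ = c • (1 : Matrix (Fin n) (Fin n) k) → (r g).trace = c) ∧
        (∀ g, (r g).det = d g) ∧ ∀ g, R g = 1 → d g = 1 → r g = 1 := by
  have hn2 : n ≤ 2 := le_two_of_isFull R d hfull hex
  interval_cases n
  · -- a character `χ`, representation `χ ⊕ d / χ`
    have hd : ∀ g, d g * d g⁻¹ = 1 := fun g => by rw [← map_mul, mul_inv_cancel, map_one]
    let χ : G →* k :=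
      { toFun := fun g => R g 0 0
        map_one' := by simp
        map_mul' := fun g g' => by simp [Matrix.mul_apply] }
    let r : G →* Matrix (Fin 2) (Fin 2) k :=
      { toFun := fun g => Matrix.diagonal ![χ g, d g * χ g⁻¹]
        map_one' := by ext i j; fin_cases i <;> fin_cases j <;> simp
        map_mul' := fun g g' => by
          rw [Matrix.diagonal_mul_diagonal]
          congr 1
          funext i
          fin_cases i
          · exact map_mul χ g g'
          · show d (g * g') * χ (g * g')⁻¹ = d g * χ g⁻¹ * (d g' * χ g'⁻¹)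
            rw [map_mul, _root_.mul_inv_rev, map_mul]
            ring }
    refine ⟨r, fun g c hc => ?_, fun g => ?_, fun g hg hdg => ?_⟩
    · simpa [r, χ, Matrix.trace_fin_two] using congrFun (congrFun hc 0) 0
    · have : χ g * χ g⁻¹ = 1 := by rw [← map_mul, mul_inv_cancel, map_one]
      show (Matrix.diagonal ![χ g, d g * χ g⁻¹]).det = d g
      rw [Matrix.det_diagonal, Fin.prod_univ_two]
      show χ g * (d g * χ g⁻¹) = d g
      linear_combination d g * this
    · have h1 : χ g = 1 := by simp [χ, hg]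
      ext i j; fin_cases i <;> fin_cases j <;> simp [r, h1, hdg]
  · -- the subrepresentation itself
    have hdet := det_trace_of_isFull R d hfull hex
    exact ⟨R, fun g => (hdet g).2, fun g => (hdet g).1, fun g hg _ => hg⟩

/-- **Main extraction.** -/
theorem exists_quadraticRep [IsAlgClosed k] {V : Type*} [AddCommGroup V] [Module k V]
    [Module.Finite k V] [Nontrivial V] (ρ : G →* Module.End k V) (d : G →* k)
    (h : ∀ g, SatisfiesQuadratic ρ d g) :
    ∃ r : G →* Matrix (Fin 2) (Fin 2) k,
      (∀ g, ρ g + d g • ρ g⁻¹ = (r g).trace • (1 : Module.End k V)) ∧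
        (∀ g, (r g).det = d g) ∧ ∀ g, ρ g = 1 → d g = 1 → r g = 1 := by
  classical
  -- a minimal nonzero invariant subspace
  let inv : Submodule k V → Prop := fun W => W ≠ ⊥ ∧ ∀ g, ∀ x ∈ W, ρ g x ∈ W
  have htop : inv ⊤ := ⟨top_ne_bot, fun g x _ => Submodule.mem_top⟩
  obtain ⟨W, ⟨hW0, hWinv⟩, hmin⟩ := WellFounded.has_min
    (inferInstance : WellFoundedLT (Submodule k V)).wf {W | inv W} ⟨⊤, htop⟩
  let ρW : G →* Module.End k W :=
    { toFun := fun g => (ρ g).restrict (hWinv g)
      map_one' := by ext x; simp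
      map_mul' := fun g g' => by ext x; simp }
  set n := Module.finrank k W with hn
  let b : Module.Basis (Fin n) k W := Module.finBasis k W
  let e : Module.End k W ≃ₐ[k] Matrix (Fin n) (Fin n) k := LinearMap.toMatrixAlgEquiv b
  let R : G →* Matrix (Fin n) (Fin n) k := e.toAlgHom.toMonoidHom.comp ρW
  have hrel : ∀ g (c : k), ρ g + d g • ρ g⁻¹ = c • (1 : Module.End k V) →
      R g + d g • R g⁻¹ = c • (1 : Matrix (Fin n) (Fin n) k) := by
    intro g c hc
    have : ρW g + d g • ρW g⁻¹ = c • (1 : Module.End k W) := by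
      ext x
      simpa [ρW] using LinearMap.congr_fun hc (x : V)
    have := congrArg e this
    rwa [map_add, map_smul, map_smul, map_one] at this
  have hex : ∀ g, ∃ c : k, R g + d g • R g⁻¹ = c • (1 : Matrix (Fin n) (Fin n) k) := fun g => by
    obtain ⟨c, hc⟩ := h g
    exact ⟨c, hrel g c hc⟩
  -- `R` is irreducible
  have hirr : ∀ U : Submodule k (Fin n → k), (∀ g, ∀ x ∈ U, R g *ᵥ x ∈ U) → U = ⊥ ∨ U = ⊤ := by
    intro U hU
    let f : (Fin n → k) ≃ₗ[k] W := b.equivFun.symm
    let U' : Submodule k V := (U.map (f : (Fin n → k) →ₗ[k] W)).map W.subtype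
    by_cases hU0 : U = ⊥
    · exact Or.inl hU0
    right
    have hU' : inv U' := by
      refine ⟨?_, ?_⟩
      · intro hbot
        refine hU0 ((Submodule.map_eq_bot_iff (e := f)).1 ?_)
        exact Submodule.map_injective_of_injective W.injective_subtype
          (hbot.trans (Submodule.map_bot _).symm)
      · rintro g x ⟨w, ⟨u, hu, rfl⟩, rfl⟩
        refine ⟨ρW g (f u), ⟨R g *ᵥ u, hU g u hu, ?_⟩, rfl⟩
        change f (R g *ᵥ u) = ρW g (f u)
        apply b.equivFun.injective
        have := LinearMap.toMatrix_mulVec_repr b b (ρW g) (f u)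
        simp only [f, LinearEquiv.apply_symm_apply]
        simp only [f, ← Module.Basis.equivFun_apply, LinearEquiv.apply_symm_apply] at this
        exact this
    have hle : U' ≤ W := Submodule.map_subtype_le _ _
    have hU'W : U' = W := by
      by_contra hne
      exact hmin U' hU' (lt_of_le_of_ne hle hne)
    have : U.map (f : (Fin n → k) →ₗ[k] W) = ⊤ := by
      apply Submodule.map_injective_of_injective W.injective_subtype
      simpa [U'] using hU'W
    refine eq_top_iff.2 fun y _ => ?_
    obtain ⟨z, hz, hzy⟩ : f y ∈ U.map (f : (Fin n → k) →ₗ[k] W) := by rw [this]; trivial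
    rwa [← f.injective hzy]
  have hfull : RepTheory.IsFull R := RepTheory.isFull_of_isAlgClosed R hirr
  have hn1 : 0 < n := by
    have : Nontrivial W := Submodule.nontrivial_iff_ne_bot.2 hW0
    exact Module.finrank_pos
  obtain ⟨r, h1, h2, h3⟩ := exists_twoDim_of_isFull R d hn1 hfull hex
  refine ⟨r, fun g => ?_, h2, fun g hg hd => h3 g ?_ hd⟩
  · obtain ⟨c, hc⟩ := h g
    rw [h1 g c (hrel g c hc), hc]
  · have : ρW g = 1 := by ext x; simp [ρW, hg]
    simp [R, this]

end Fermat.Agent.EigenRep
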