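import Fermat.Agent.EigenRep.QuadraticRep
import Fermat.Agent.HeckeLattice.Lattice
import Fermat.Agent.HeckeAlg.S29FromS30
import Fermat.Agent.HeckeAlg.FiniteLevel
import Fermat.Agent.Chebotarev.Basic
import Fermat.Agent.GaloisBasics.Roots
import Mathlib.RingTheory.IntegralDomain
import Mathlib.LinearAlgebra.Matrix.Charpoly.Coeff

/-!
# Residual representations of eigenforms from Galois actions on parabolic characters

Input (`HasParabolicGaloisAction N p`): an action of `Gal(ℚ̄/ℚ)` on the parabolic characters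
`Γ₀(N) → ℤ/p`, of finite level, commuting with the transfers `T_ℓ`, unramified outside `N p` and
satisfying `F² - T_ℓ F + ℓ = 0` at Frobenius elements.  Output: every weight-two normalised
eigenform on `Γ₀(N)` has an attached residual Galois representation, unramified outside `N p`.
-/


noncomputable section

open CongruenceSubgroup ModularCurve ModularCurve.Period Polynomial
open scoped MatrixGroups TensorProduct

namespace Fermat.Agent.EigenRep

open HeckeLattice

local notation "Qb" => AlgebraicClosure ℚ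
local notation "Gal" => (AlgebraicClosure ℚ ≃ₐ[ℚ] AlgebraicClosure ℚ)
local notation "Z̄" => integralClosure ℤ ℂ

/-- Parabolic characters `Γ₀(N) → ℤ/p`. -/
abbrev ParChar (N p : ℕ) : Submodule (ZMod p) (Additive (Gamma0 N) →+ ZMod p) :=
  parabolicHoms (ZMod p) (Gamma0 N) (ZMod p)

/-- A Galois action on parabolic characters mod `p` with the Eichler–Shimura relation. -/
def HasParabolicGaloisAction (N p : ℕ) : Prop :=
  ∃ r : Gal →* Module.End (ZMod p) (ParChar N p),
    GaloisFactorsThroughFiniteLevel r ∧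
    (∀ q : ℕ, q.Prime → ¬ q ∣ N * p → ∀ A : ValuationSubring Qb, A.LiesOverPrime q →
      ∀ σ ∈ A.inertiaSubgroupIn ℚ, r σ = 1) ∧
    (∀ (ℓ : ℕ) (_ : Fact ℓ.Prime) (hℓN : ¬ ℓ ∣ N), ℓ ≠ p → ∀ (σ : Gal) (χ χ' : ParChar N p),
      transfer hℓN (χ : Additive (Gamma0 N) →+ ZMod p) = (χ' : Additive (Gamma0 N) →+ ZMod p) →
      transfer hℓN ((r σ χ : ParChar N p) : Additive (Gamma0 N) →+ ZMod p)
        = ((r σ χ' : ParChar N p) : Additive (Gamma0 N) →+ ZMod p)) ∧
    (∀ (ℓ : ℕ) (_ : Fact ℓ.Prime) (hℓN : ¬ ℓ ∣ N), ℓ ≠ p → ∀ A : ValuationSubring Qb,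
      A.LiesOverPrime ℓ → ∀ φ : Gal, A.IsFrobeniusAt φ ℓ → ∀ χ : ParChar N p,
        ((r φ (r φ χ) : ParChar N p) : Additive (Gamma0 N) →+ ZMod p)
          - transfer hℓN ((r φ χ : ParChar N p) : Additive (Gamma0 N) →+ ZMod p)
          + ℓ • (χ : Additive (Gamma0 N) →+ ZMod p) = 0)

section Good

variable {N p : ℕ} [NeZero N] [Fact p.Prime] {S : Set ℕ}
  (hNS : ∀ q : ℕ, q.Prime → q ∣ N → q ∈ S)

/-- Formal Hecke operators with values in parabolic characters. -/
def good : Submodule (ZMod p) (ParChar N p) :=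
  AddSubgroup.toZModSubmodule p
    { carrier := {χ | ∀ P : FreeHecke S,
        IsParabolicHom (Gamma0 N) (transferAct hNS (ZMod p) P (χ : Additive (Gamma0 N) →+ ZMod p))}
      zero_mem' := fun P => by
        rw [ZeroMemClass.coe_zero, map_zero]; exact fun _ _ => rfl
      add_mem' := fun {a b} ha hb P => by
        rw [Submodule.coe_add, map_add]
        exact (parabolicHoms (ZMod p) (Gamma0 N) (ZMod p)).add_mem (ha P) (hb P)
      neg_mem' := fun {a} ha P => by
        rw [Submodule.coe_neg, map_neg]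
        exact (parabolicHoms (ZMod p) (Gamma0 N) (ZMod p)).neg_mem (ha P) }

omit [NeZero N] in
/-- `good` is stable under the formal Hecke operators. -/
lemma good_act_mem {χ : ParChar N p} (hχ : χ ∈ good hNS) (P : FreeHecke S) :
    (⟨_, hχ P⟩ : ParChar N p) ∈ good hNS := fun Q => by
  show IsParabolicHom _ (transferAct hNS (ZMod p) Q (transferAct hNS (ZMod p) P χ.1))
  rw [← Module.End.mul_apply, ← map_mul]
  exact hχ (Q * P)

omit [NeZero N] in
/-- An endomorphism commuting with the generators commutes with all formal Hecke operators. -/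
lemma transferAct_comm (f : ParChar N p →ₗ[ZMod p] ParChar N p)
    (hf : ∀ (ℓ : AwayIdx S) (χ χ' : ParChar N p),
      transferAct hNS (ZMod p) (FreeAlgebra.ι ℤ ℓ) χ.1 = χ'.1 →
      transferAct hNS (ZMod p) (FreeAlgebra.ι ℤ ℓ) (f χ).1 = (f χ').1)
    (P : FreeHecke S) : ∀ (χ : ParChar N p) (hχ : χ ∈ good hNS),
      transferAct hNS (ZMod p) P (f χ).1 = (f ⟨_, hχ P⟩).1 := by
  induction P using FreeAlgebra.induction with
  | grade0 r =>
    intro χ hχ
    have h : (⟨_, hχ (algebraMap ℤ (FreeHecke S) r)⟩ : ParChar N p) = r • χ :=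
      Subtype.ext (by simp)
    rw [h]
    simp
  | grade1 ℓ => exact fun χ hχ => hf ℓ χ _ rfl
  | add a b ha hb =>
    intro χ hχ
    have h : (⟨_, hχ (a + b)⟩ : ParChar N p) = ⟨_, hχ a⟩ + ⟨_, hχ b⟩ :=
      Subtype.ext (by simp)
    rw [h, map_add, map_add, LinearMap.add_apply, Submodule.coe_add, ha χ hχ, hb χ hχ]
  | mul a b ha hb =>
    intro χ hχ
    have h : (⟨_, hχ (a * b)⟩ : ParChar N p) = ⟨_, good_act_mem hNS hχ b a⟩ :=
      Subtype.ext (by simp [Module.End.mul_apply])
    rw [h, map_mul, Module.End.mul_apply, hb χ hχ, ha ⟨_, hχ b⟩ (good_act_mem hNS hχ b)]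

end Good

/-- Hecke action of `h` on the period lattice as a ring homomorphism. -/
def latticeHom {N : ℕ} [NeZero N] {S : Set ℕ} (hNS : ∀ q : ℕ, q.Prime → q ∣ N → q ∈ S) :
    CuspForm.heckeAlgebra N 2 S →+* Module.End ℤ (periodLattice N) where
  toFun := latticeAct hNS
  map_one' := LinearMap.ext fun v => Subtype.ext (LinearMap.ext fun f => by
    simp)
  map_mul' t u := LinearMap.ext fun v => Subtype.ext (LinearMap.ext fun f => by
    rw [Module.End.mul_apply]
    simp only [latticeAct_apply, LinearMap.dualMap_apply]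
    rw [← Module.End.mul_apply, ← MulMemClass.coe_mul, mul_comm u t])
  map_zero' := map_zero _
  map_add' := map_add _

/-- A nonzero parabolic character mod `p` killed by the formal operators in a maximal ideal. -/
theorem exists_character_killed {N p : ℕ} [NeZero N] [Fact p.Prime] {S : Set ℕ}
    (hNS : ∀ q : ℕ, q.Prime → q ∣ N → q ∈ S)
    (m : Ideal (CuspForm.heckeAlgebra N 2 S)) (hm : m ≠ ⊤)
    (hpm : (p : CuspForm.heckeAlgebra N 2 S) ∈ m) :
    ∃ χ : ParChar N p, χ ≠ 0 ∧ χ ∈ good hNS ∧ ∀ P : FreeHecke S, evalFree hNS P ∈ m →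
      transferAct hNS (ZMod p) P χ.1 = 0 := by
  let : Module (CuspForm.heckeAlgebra N 2 S) (periodLattice N) :=
    Module.compHom _ (latticeHom hNS)
  have hsmul : ∀ (t : CuspForm.heckeAlgebra N 2 S) (v : periodLattice N),
      t • v = latticeAct hNS t v := fun _ _ => rfl
  have : IsScalarTower ℤ (CuspForm.heckeAlgebra N 2 S) (periodLattice N) :=
    ⟨fun r t v => by rw [hsmul, hsmul, map_zsmul, LinearMap.smul_apply]⟩
  have hfg : (⊤ : Submodule (CuspForm.heckeAlgebra N 2 S) (periodLattice N)).FG :=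
    (Module.Finite.of_restrictScalars_finite ℤ _ _).fg_top
  set L' := periodLattice N ⧸ (m • ⊤ : Submodule (CuspForm.heckeAlgebra N 2 S) (periodLattice N))
  obtain ⟨v, hv⟩ : ∃ v : periodLattice N,
      v ∉ (m • ⊤ : Submodule (CuspForm.heckeAlgebra N 2 S) (periodLattice N)) := by
    by_contra hall
    push Not at hall
    obtain ⟨t, ht, ht0⟩ := Submodule.exists_sub_one_mem_and_smul_eq_zero_of_fg_of_le_smul m _
      hfg (fun w _ => hall w)
    have : latticeAct hNS t = 0 := LinearMap.ext fun w => ht0 w trivial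
    rw [← map_zero (latticeAct hNS)] at this
    rw [latticeAct_injective hNS this, zero_sub, neg_mem_iff] at ht
    exact hm ((Ideal.eq_top_iff_one m).2 ht)
  have hkill : ∀ x : L', p • x = 0 := by
    intro x
    obtain ⟨w, rfl⟩ := Submodule.Quotient.mk_surjective _ x
    rw [← Submodule.Quotient.mk_smul, Submodule.Quotient.mk_eq_zero,
      ← Nat.cast_smul_eq_nsmul (CuspForm.heckeAlgebra N 2 S)]
    exact Submodule.smul_mem_smul hpm Submodule.mem_top
  obtain ⟨u, hu⟩ := exists_zmod_hom_ne_zero hkill (a := (Submodule.Quotient.mk v : L'))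
    (by rwa [ne_eq, Submodule.Quotient.mk_eq_zero])
  let toL : ParGroup N →+ periodLattice N :=
    (periodDual N).codRestrict (periodLattice N) fun a => ⟨a, rfl⟩
  let uL : periodLattice N →+ ZMod p :=
    u.comp (Submodule.mkQ _ : periodLattice N →ₗ[CuspForm.heckeAlgebra N 2 S] L').toAddMonoidHom
  let uG : ParGroup N →+ ZMod p := uL.comp toL
  have hkey : ∀ P : FreeHecke S, transferAct hNS (ZMod p) P (uG.comp (parHom N)) =
      ((uL.comp (latticeAct hNS (evalFree hNS P)).toAddMonoidHom).comp toL).comp (parHom N) := by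
    intro P
    rw [← comp_transferAct]
    refine AddMonoidHom.ext fun γ => ?_
    show uL (toL (transferAct hNS (ParGroup N) P (parHom N) γ)) =
      uL (latticeAct hNS (evalFree hNS P) (toL (parHom N γ)))
    exact congrArg uL (Subtype.ext (dualMap_periodDual hNS P γ).symm)
  have hpar : ∀ g : ParGroup N →+ ZMod p, IsParabolicHom (Gamma0 N) (g.comp (parHom N)) :=
    fun g γ hγ => by rw [AddMonoidHom.comp_apply, parHom_isParabolicHom N γ hγ, map_zero]
  refine ⟨⟨_, hpar uG⟩, fun h0 => hu ?_, fun P => by rw [hkey]; exact hpar _, fun P hP => ?_⟩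
  · obtain ⟨a, ha⟩ := v.2
    obtain ⟨γ, rfl⟩ := parHom_surjective N a
    have := DFunLike.congr_fun (congrArg Subtype.val h0) γ
    have hv' : toL (parHom N γ) = v := Subtype.ext ha
    simpa [uG, uL, hv'] using this
  · rw [hkey]
    refine AddMonoidHom.ext fun γ => ?_
    show u (Submodule.Quotient.mk (latticeAct hNS (evalFree hNS P) (toL (parHom N γ)))) = 0
    rw [(Submodule.Quotient.mk_eq_zero _).2 (show latticeAct hNS (evalFree hNS P) _ ∈ _ from
      (hsmul _ _) ▸ Submodule.smul_mem_smul hP Submodule.mem_top), map_zero]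

/-- There are `p` roots of unity of order dividing `p` in `ℚ̄`. -/
lemma card_rootsOfUnity_qbar (p : ℕ) [NeZero p] : Nat.card (rootsOfUnity p Qb) = p := by
  obtain ⟨ζ, hζ⟩ := HasEnoughRootsOfUnity.exists_primitiveRoot Qb p
  exact hζ.card_rootsOfUnity

/-- The cyclotomic character mod `p` with values in `k`. -/
def cycloChar (p : ℕ) [NeZero p] (k : Type) [CommRing k] [Algebra (ZMod p) k] : Gal →* k :=
  ((algebraMap (ZMod p) k).toMonoidHom.comp (Units.coeHom (ZMod p))).comp
    ((modularCyclotomicCharacter Qb (card_rootsOfUnity_qbar p)).comp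
      { toFun := fun σ => (σ : Qb ≃+* Qb), map_one' := rfl, map_mul' := fun _ _ => rfl })

lemma cycloChar_finiteLevel (p : ℕ) [NeZero p] (k : Type) [CommRing k] [Algebra (ZMod p) k] :
    GaloisFactorsThroughFiniteLevel (cycloChar p k) := by
  obtain ⟨ζ, hζ⟩ := HasEnoughRootsOfUnity.exists_primitiveRoot Qb p
  refine ⟨IntermediateField.adjoin ℚ {ζ}, IntermediateField.adjoin.finiteDimensional
    (Algebra.IsIntegral.isIntegral ζ), fun σ hσ => ?_⟩
  have h := GaloisBasics.modularCyclotomicCharacter_eq_natCast (card_rootsOfUnity_qbar p)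
    (σ : Qb ≃+* Qb) 1 fun x hx => by
      obtain ⟨i, -, rfl⟩ := hζ.eq_pow_of_pow_eq_one hx
      rw [pow_one, map_pow]
      exact congrArg (· ^ i) (hσ ζ (IntermediateField.mem_adjoin_simple_self ℚ ζ))
  have h' : (modularCyclotomicCharacter Qb (card_rootsOfUnity_qbar p) (σ : Qb ≃+* Qb) : ZMod p) =
      1 :=
    h.trans Nat.cast_one
  show algebraMap (ZMod p) k _ = 1
  exact (congrArg _ h').trans (map_one _)

/-- Parabolic characters mod `p` form a finite set. -/
theorem finite_parChar (N p : ℕ) [NeZero N] [NeZero p] : Finite (ParChar N p) := by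
  have : Finite (ParGroup N →+ ZMod p) := by
    obtain ⟨s, hs⟩ := (instFiniteParGroup (N := N)).fg_top
    refine Finite.of_injective (fun (f : ParGroup N →+ ZMod p) (x : s) => f x.1) fun f f' h => ?_
    have := LinearMap.ext_on (f := f.toIntLinearMap) (g := f'.toIntLinearMap) hs
      fun x hx => congrFun h ⟨x, hx⟩
    exact AddMonoidHom.ext fun x => LinearMap.congr_fun this x
  refine Finite.of_injective (fun χ : ParChar N p => factor χ.1 χ.2) fun a b h => Subtype.ext ?_
  exact ((factor_comp_parHom a.1 a.2).symm.trans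
    (congrArg (fun f : ParGroup N →+ ZMod p => f.comp (parHom N)) h)).trans
    (factor_comp_parHom b.1 b.2)

/-- Base change of a finite module with commuting Galois action along `F →+* K`. -/
theorem exists_baseChangeRep {G F K V0 : Type} [Monoid G] [Field F] [Field K] (i : F →+* K)
    [AddCommGroup V0] [Module F V0] [Module.Finite F V0] [Nontrivial V0]
    (ρ0 : G →* Module.End F V0) :
    ∃ (V : Type) (_ : AddCommGroup V) (_ : Module K V) (_ : Module.Finite K V) (_ : Nontrivial V)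
      (ρ : G →* Module.End K V), (∀ g, ρ0 g = 1 → ρ g = 1) ∧
      ∀ (g : G) (a : F) (n : ℕ), ρ0 g * ρ0 g - a • ρ0 g + (n : F) • (1 : Module.End F V0) = 0 →
        ρ g * ρ g - i a • ρ g + (n : K) • (1 : Module.End K V) = 0 := by
  let : Algebra F K := i.toAlgebra
  let ρ : G →* Module.End K (K ⊗[F] V0) :=
    { toFun := fun σ => (ρ0 σ).baseChange K
      map_one' := by rw [map_one, LinearMap.baseChange_one]
      map_mul' := fun σ τ => by rw [map_mul, LinearMap.baseChange_mul] }
  have : Nontrivial (K ⊗[F] V0) := Module.nontrivial_of_finrank_pos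
    (R := K) (by rw [Module.finrank_baseChange]; exact Module.finrank_pos)
  refine ⟨K ⊗[F] V0, inferInstance, inferInstance, inferInstance, inferInstance, ρ,
    fun g hg => ?_, fun g a n h => ?_⟩
  · show (ρ0 g).baseChange K = 1
    rw [hg, LinearMap.baseChange_one]
  · have h1 := congrArg (LinearMap.baseChange K) h
    rw [LinearMap.baseChange_add, LinearMap.baseChange_sub, LinearMap.baseChange_smul,
      LinearMap.baseChange_smul, LinearMap.baseChange_mul, LinearMap.baseChange_one,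
      LinearMap.baseChange_zero] at h1
    rwa [← algebraMap_smul K a, ← algebraMap_smul K (n : F), map_natCast] at h1

section EigenPart

variable {N p : ℕ} [NeZero N] [Fact p.Prime] {S : Set ℕ}
  (hNS : ∀ q : ℕ, q.Prime → q ∣ N → q ∈ S) {K : Type} [Field K]
  (θ : CuspForm.heckeAlgebra N 2 S →+* K)

/-- The eigensystem on formal operators, with values in the image. -/
def eigenSystem : FreeHecke S →+* θ.range := θ.rangeRestrict.comp (evalFree hNS).toRingHom

lemma eigenSystem_surjective : Function.Surjective (eigenSystem hNS θ) :=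
  θ.rangeRestrict_surjective.comp (evalFree_surjective hNS)

/-- The part of the good parabolic characters killed by the kernel of the eigensystem. -/
def eigenPart : Submodule (ZMod p) (ParChar N p) :=
  AddSubgroup.toZModSubmodule p
    { carrier := {χ | χ ∈ good hNS ∧
        ∀ P, eigenSystem hNS θ P = 0 → transferAct hNS (ZMod p) P χ.1 = 0}
      zero_mem' := ⟨zero_mem _, fun P _ => map_zero _⟩
      add_mem' := fun {a b} ha hb => ⟨add_mem ha.1 hb.1, fun P hP => by
        rw [Submodule.coe_add, map_add, ha.2 P hP, hb.2 P hP, add_zero]⟩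
      neg_mem' := fun {a} ha => ⟨neg_mem ha.1, fun P hP => by
        rw [Submodule.coe_neg, map_neg, ha.2 P hP, neg_zero]⟩ }

/-- The eigenspace is stable under the formal Hecke operators. -/
lemma eigenPart_act_mem (P : FreeHecke S) {χ : ParChar N p} (hχ : χ ∈ eigenPart hNS θ) :
    (⟨_, hχ.1 P⟩ : ParChar N p) ∈ eigenPart hNS θ :=
  ⟨good_act_mem hNS hχ.1 P, fun Q hQ => by
    show transferAct hNS (ZMod p) Q (transferAct hNS (ZMod p) P χ.1) = 0
    rw [← Module.End.mul_apply, ← map_mul, hχ.2 _ (by rw [map_mul, hQ, zero_mul])]⟩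

/-- Formal operators on the eigen part. -/
def eigenAct : FreeHecke S →+* AddMonoid.End (eigenPart (p := p) hNS θ) where
  toFun P := AddMonoidHom.mk'
    (fun χ => (⟨⟨_, χ.2.1 P⟩, eigenPart_act_mem hNS θ P χ.2⟩ : eigenPart (p := p) hNS θ))
    (fun a b => Subtype.ext (Subtype.ext (map_add (transferAct hNS (ZMod p) P) a.1.1 b.1.1)))
  map_one' := AddMonoidHom.ext fun χ => Subtype.ext (Subtype.ext (by
    show transferAct hNS (ZMod p) 1 χ.1.1 = χ.1.1
    rw [map_one, Module.End.one_apply]))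
  map_mul' P Q := AddMonoidHom.ext fun χ => Subtype.ext (Subtype.ext (by
    show transferAct hNS (ZMod p) (P * Q) χ.1.1
      = transferAct hNS (ZMod p) P (transferAct hNS (ZMod p) Q χ.1.1)
    rw [map_mul, Module.End.mul_apply]))
  map_zero' := AddMonoidHom.ext fun χ => Subtype.ext (Subtype.ext (by
    show transferAct hNS (ZMod p) 0 χ.1.1 = 0
    rw [map_zero, LinearMap.zero_apply]))
  map_add' P Q := AddMonoidHom.ext fun χ => Subtype.ext (Subtype.ext (by
    show transferAct hNS (ZMod p) (P + Q) χ.1.1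
      = transferAct hNS (ZMod p) P χ.1.1 + transferAct hNS (ZMod p) Q χ.1.1
    rw [map_add, LinearMap.add_apply]))

/-- The eigensystem makes the eigen part a module over the image. -/
def eigenActImage : θ.range →+* AddMonoid.End (eigenPart (p := p) hNS θ) :=
  (eigenSystem hNS θ).liftOfSurjective (eigenSystem_surjective hNS θ)
    ⟨eigenAct hNS θ, fun P hP => RingHom.mem_ker.2 (AddMonoidHom.ext fun χ =>
      Subtype.ext (Subtype.ext (χ.2.2 P (RingHom.mem_ker.1 hP))))⟩

lemma eigenActImage_apply (P : FreeHecke S) (χ : eigenPart (p := p) hNS θ) :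
    (((eigenActImage hNS θ (eigenSystem hNS θ P) χ : eigenPart (p := p) hNS θ) : ParChar N p) :
      Additive (Gamma0 N) →+ ZMod p) = transferAct hNS (ZMod p) P χ.1.1 := by
  rw [eigenActImage, RingHom.liftOfRightInverse_comp_apply]
  rfl

/-- The module structure on the eigen part. -/
@[reducible] def eigenModule : Module θ.range (eigenPart (p := p) hNS θ) :=
  Module.compHom (eigenPart (p := p) hNS θ) (eigenActImage (p := p) hNS θ)

lemma eigen_smul_apply (P : FreeHecke S) (χ : eigenPart (p := p) hNS θ) :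
    letI := eigenModule (p := p) hNS θ
    (((eigenSystem hNS θ P • χ : eigenPart (p := p) hNS θ) : ParChar N p) :
      Additive (Gamma0 N) →+ ZMod p) = transferAct hNS (ZMod p) P χ.1.1 :=
  eigenActImage_apply hNS θ P χ

/-- An endomorphism commuting with the Hecke operators preserves the eigenspace. -/
lemma eigenPart_gal_mem (f : ParChar N p →ₗ[ZMod p] ParChar N p)
    (hf : ∀ (ℓ : AwayIdx S) (χ χ' : ParChar N p),
      transferAct hNS (ZMod p) (FreeAlgebra.ι ℤ ℓ) χ.1 = χ'.1 →
      transferAct hNS (ZMod p) (FreeAlgebra.ι ℤ ℓ) (f χ).1 = (f χ').1)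
    {χ : ParChar N p} (hχ : χ ∈ eigenPart hNS θ) : f χ ∈ eigenPart hNS θ := by
  refine ⟨fun P => ?_, fun P hP => ?_⟩ <;> rw [transferAct_comm hNS f hf P χ hχ.1]
  · exact (f _).2
  · have h0 : (⟨_, hχ.1 P⟩ : ParChar N p) = 0 := Subtype.ext (hχ.2 P hP)
    rw [h0, map_zero]; rfl

/-- A commuting endomorphism restricted to the eigen part is linear over the image. -/
def eigenEnd (f : ParChar N p →ₗ[ZMod p] ParChar N p)
    (hf : ∀ (ℓ : AwayIdx S) (χ χ' : ParChar N p),
      transferAct hNS (ZMod p) (FreeAlgebra.ι ℤ ℓ) χ.1 = χ'.1 →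
      transferAct hNS (ZMod p) (FreeAlgebra.ι ℤ ℓ) (f χ).1 = (f χ').1) :
    letI := eigenModule (p := p) hNS θ
    Module.End θ.range (eigenPart (p := p) hNS θ) :=
  letI := eigenModule (p := p) hNS θ
  { toFun := fun χ => ⟨f χ.1, eigenPart_gal_mem hNS θ f hf χ.2⟩
    map_add' := fun a b => Subtype.ext (map_add f a.1 b.1)
    map_smul' := fun c χ => by
      obtain ⟨P, rfl⟩ := eigenSystem_surjective hNS θ c
      refine Subtype.ext (Subtype.ext ?_)
      rw [RingHom.id_apply, eigen_smul_apply, transferAct_comm hNS f hf P χ.1 χ.2.1]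
      exact congrArg (fun x => ((f x : ParChar N p) : Additive (Gamma0 N) →+ ZMod p))
        (Subtype.ext (eigen_smul_apply hNS θ P χ)) }

end EigenPart

/-- An eigensystem in characteristic `p` of a finite `ℤ`-algebra takes finitely many values. -/
lemma finite_range_of_charP {R K : Type} [CommRing R] [Module.Finite ℤ R] [Field K] {p : ℕ}
    [Fact p.Prime] [CharP K p] (θ : R →+* K) : Finite θ.range := by
  have : Module.Finite ℤ θ.range :=
    Module.Finite.of_surjective θ.rangeRestrict.toAddMonoidHom.toIntLinearMap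
      θ.rangeRestrict_surjective
  have : CharP θ.range p := (RingHom.charP_iff θ.range.subtype Subtype.val_injective p).2 ‹_›
  let : Algebra (ZMod p) θ.range := ZMod.algebra _ p
  have : Module.Finite (ZMod p) θ.range := Module.Finite.of_restrictScalars_finite ℤ _ _
  exact Module.finite_of_finite (ZMod p)

/-- The eigenspace of a finite-valued system inside parabolic characters, with its Galois action. -/
theorem exists_eigenModule {N p : ℕ} [NeZero N] [Fact p.Prime] {S : Set ℕ}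
    (hNS : ∀ q : ℕ, q.Prime → q ∣ N → q ∈ S) (hpS : p ∈ S)
    (h : HasParabolicGaloisAction N p) {K : Type} [Field K] [CharP K p]
    (θ : CuspForm.heckeAlgebra N 2 S →+* K) :
    ∃ (V : Type) (_ : AddCommGroup V) (_ : Module K V) (_ : Module.Finite K V) (_ : Nontrivial V)
      (ρ : Gal →* Module.End K V),
      GaloisFactorsThroughFiniteLevel ρ ∧
      (∀ q : ℕ, q.Prime → ¬ q ∣ N * p → ∀ A : ValuationSubring Qb, A.LiesOverPrime q →
        ∀ σ ∈ A.inertiaSubgroupIn ℚ, ρ σ = 1) ∧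
      ∀ (ℓ : ℕ) (hℓ : ℓ.Prime) (hℓS : ℓ ∉ S), ∀ A : ValuationSubring Qb, A.LiesOverPrime ℓ →
        ∀ σ : Gal, A.IsFrobeniusAt σ ℓ →
          ρ σ * ρ σ - θ (CuspForm.heckeAlgebra.T hℓ (fun h => hℓS (hNS ℓ hℓ h)) hℓS) • ρ σ
            + (ℓ : K) • (1 : Module.End K V) = 0 := by
  classical
  obtain ⟨r, hlev, hunr, hcomm, hES⟩ := h
  have : Module.Finite ℤ (CuspForm.heckeAlgebra N 2 S) := moduleFinite_heckeAlgebra hNS
  have hfin : Finite θ.range := finite_range_of_charP (p := p) θ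
  let : Field θ.range := (Finite.isField_of_domain θ.range).toField
  obtain ⟨χ₀, hχ₀, hgood₀, hkill₀⟩ := exists_character_killed (p := p) hNS (RingHom.ker θ)
    (RingHom.ker_ne_top θ) (by rw [RingHom.mem_ker, map_natCast, CharP.cast_eq_zero])
  let : Module θ.range (eigenPart (p := p) hNS θ) := eigenModule hNS θ
  have hgen : ∀ σ (ℓ : AwayIdx S) (χ χ' : ParChar N p),
      transferAct hNS (ZMod p) (FreeAlgebra.ι ℤ ℓ) χ.1 = χ'.1 →
      transferAct hNS (ZMod p) (FreeAlgebra.ι ℤ ℓ) (r σ χ).1 = (r σ χ').1 := by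
    intro σ ℓ χ χ' h
    have := Fact.mk ℓ.1.2
    simp only [transferAct, FreeAlgebra.lift_ι_apply] at h ⊢
    exact hcomm ℓ.1 inferInstance _ (fun he => ℓ.2 (he ▸ hpS)) σ χ χ' h
  let ρ0 : Gal →* Module.End θ.range (eigenPart (p := p) hNS θ) :=
    { toFun := fun σ => eigenEnd hNS θ (r σ) (hgen σ)
      map_one' := LinearMap.ext fun χ => Subtype.ext (by
        show r 1 χ.1 = χ.1
        rw [map_one, Module.End.one_apply])
      map_mul' := fun σ τ => LinearMap.ext fun χ => Subtype.ext (by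
        show r (σ * τ) χ.1 = r σ (r τ χ.1)
        rw [map_mul, Module.End.mul_apply]) }
  have : Finite (ParChar N p) := finite_parChar N p
  have : Nontrivial (eigenPart (p := p) hNS θ) := by
    have hmem : χ₀ ∈ eigenPart hNS θ := ⟨hgood₀, fun P hP => hkill₀ P
      (RingHom.mem_ker.2 (congrArg Subtype.val hP))⟩
    exact nontrivial_of_ne (⟨χ₀, hmem⟩ : eigenPart hNS θ) 0 fun h => hχ₀ (congrArg Subtype.val h)
  have : Module.Finite θ.range (eigenPart (p := p) hNS θ) := Module.Finite.of_finite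
  obtain ⟨V, _, _, _, _, ρ, htriv, hrel⟩ := exists_baseChangeRep θ.range.subtype ρ0
  have htriv' : ∀ σ : Gal, r σ = 1 → ρ σ = 1 := fun σ h => htriv σ (LinearMap.ext fun χ =>
    Subtype.ext (show r σ χ.1 = χ.1 by rw [h, Module.End.one_apply]))
  refine ⟨V, inferInstance, inferInstance, inferInstance, inferInstance, ρ,
    ?_, fun q hq hqN A hA σ hσ => htriv' σ (hunr q hq hqN A hA σ hσ), ?_⟩
  · obtain ⟨L, hL, h1⟩ := hlev
    exact ⟨L, hL, fun σ hσ => htriv' σ (h1 σ hσ)⟩
  intro ℓ hℓ hℓS A hA σ hσ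
  have := Fact.mk hℓ
  have hℓN : ¬ ℓ ∣ N := fun h => hℓS (hNS ℓ hℓ h)
  set P : FreeHecke S := FreeAlgebra.ι ℤ ⟨⟨ℓ, hℓ⟩, hℓS⟩ with hP
  have hψP : θ.range.subtype (eigenSystem hNS θ P) = θ (CuspForm.heckeAlgebra.T hℓ hℓN hℓS) := by
    simp [eigenSystem, hP, evalFree]
  have h1 := hrel σ (eigenSystem hNS θ P) ℓ <| LinearMap.ext fun χ => Subtype.ext (Subtype.ext ?_)
  · rwa [hψP] at h1
  · have h := hES ℓ inferInstance hℓN (fun he => hℓS (he ▸ hpS)) A hA σ hσ χ.1
    have ht : (((eigenSystem hNS θ P • ρ0 σ χ : eigenPart (p := p) hNS θ) : ParChar N p) :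
          Additive (Gamma0 N) →+ ZMod p) =
        transfer hℓN ((r σ χ.1 : ParChar N p) : Additive (Gamma0 N) →+ ZMod p) := by
      rw [eigen_smul_apply, hP]
      simp only [transferAct, FreeAlgebra.lift_ι_apply]
      rfl
    rw [Nat.cast_smul_eq_nsmul]
    show ((r σ (r σ χ.1) : ParChar N p) : Additive (Gamma0 N) →+ ZMod p)
      - (((eigenSystem hNS θ P • ρ0 σ χ : eigenPart (p := p) hNS θ) : ParChar N p) :
          Additive (Gamma0 N) →+ ZMod p)
      + ℓ • (χ.1 : Additive (Gamma0 N) →+ ZMod p) = 0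
    rw [ht]
    exact h

/-- A Galois action on the parabolic characters modulo `p` gives a residual representation attached
to a normalised eigenform of level `N`, unramified outside `N p`. -/
theorem exists_residualRep {N : ℕ} {g : CuspForm (Gamma0 N) 2} (hg : g.IsNormalizedEigenform)
    {p : ℕ} (hp : p.Prime) (hact : N ≠ 0 → HasParabolicGaloisAction N p)
    {k : Type} [Field k] [CharP k p] (φ : Z̄ →+* k) :
    ∃ ρ : ResidualGaloisRep k, ρ.IsAttachedTo g φ ∧
      ∀ ℓ : ℕ, ℓ.Prime → ¬ ℓ ∣ N * p → ρ.IsUnramifiedAt ℓ := by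
  classical
  rcases eq_or_ne N 0 with hN | hN
  · refine ⟨HeckeAlg.trivialRep k, fun ℓ _ hℓN => absurd (hN ▸ dvd_zero ℓ) hℓN,
      fun ℓ _ hℓ => absurd ?_ hℓ⟩
    simp [hN]
  have : NeZero N := ⟨hN⟩
  have : Fact p.Prime := ⟨hp⟩
  have hNp : N * p ≠ 0 := mul_ne_zero hN hp.ne_zero
  set S : Set ℕ := ↑(N * p).primeFactors with hS
  have hmemS : ∀ ℓ : ℕ, ℓ.Prime → (ℓ ∈ S ↔ ℓ ∣ N * p) := fun ℓ hℓ => by
    simp [hS, Nat.mem_primeFactors, hℓ, hNp]
  have hNS : ∀ q : ℕ, q.Prime → q ∣ N → q ∈ S := fun q hq h => (hmemS q hq).2 (h.mul_right p)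
  have hpS : p ∈ S := (hmemS p hp).2 (dvd_mul_left p N)
  have : Module.Finite ℤ (CuspForm.heckeAlgebra N 2 S) := moduleFinite_heckeAlgebra hNS
  obtain ⟨χg, hχg⟩ := HeckeAlg.exists_eigenCharacter_integral hg S
  have h𝔪 : (RingHom.ker φ).IsMaximal := HeckeAlg.ker_isMaximal hp φ
  let : Field (Z̄ ⧸ RingHom.ker φ) := Ideal.Quotient.field _
  have := HeckeAlg.isAlgClosed_quotient (RingHom.ker φ)
  let ι : Z̄ ⧸ RingHom.ker φ →+* k := RingHom.kerLift φ
  have : CharP (Z̄ ⧸ RingHom.ker φ) p := (RingHom.charP_iff ι ι.injective p).2 inferInstance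
  let : Algebra (ZMod p) (Z̄ ⧸ RingHom.ker φ) := ZMod.algebra _ p
  obtain ⟨V, _, _, _, _, ρ, hlev, hunr, hrel⟩ := exists_eigenModule hNS hpS (hact hN)
    ((Ideal.Quotient.mk (RingHom.ker φ)).comp χg)
  let d : Gal →* Z̄ ⧸ RingHom.ker φ := cycloChar p _
  have hfrobd : ∀ ℓ : ℕ, ℓ.Prime → ℓ ≠ p → ∀ A : ValuationSubring Qb, A.LiesOverPrime ℓ →
      ∀ σ : Gal, A.IsFrobeniusAt σ ℓ → d σ = (ℓ : Z̄ ⧸ RingHom.ker φ) := by
    intro ℓ hℓ hℓp A hA σ hσ
    have := GaloisBasics.modularCyclotomicCharacter_frobenius hA hℓ (card_rootsOfUnity_qbar p)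
      (fun h => hℓp ((Nat.prime_dvd_prime_iff_eq hℓ hp).1 h)) hσ
    simp [d, cycloChar, this]
  have hrelFrob : ∀ (ℓ : ℕ) (hℓ : ℓ.Prime) (hℓS : ℓ ∉ S), ∀ A : ValuationSubring Qb,
      A.LiesOverPrime ℓ → ∀ σ : Gal, A.IsFrobeniusAt σ ℓ →
      ρ σ + d σ • ρ σ⁻¹ =
        Ideal.Quotient.mk (RingHom.ker φ)
          (χg (CuspForm.heckeAlgebra.T hℓ (fun h => hℓS (hNS ℓ hℓ h)) hℓS)) •
            (1 : Module.End (Z̄ ⧸ RingHom.ker φ) V) := by
    intro ℓ hℓ hℓS A hA σ hσ
    refine satisfiesQuadratic_of_sq ?_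
    rw [hfrobd ℓ hℓ (fun h => hℓS (h ▸ hpS)) A hA σ hσ]
    exact hrel ℓ hℓ hℓS A hA σ hσ
  obtain ⟨F, hFfin, -, hF⟩ := HeckeAlg.exists_numberField_level hlev
    (cycloChar_finiteLevel p (Z̄ ⧸ RingHom.ker φ))
  have := hFfin
  have hρF : ∀ σ : Gal, (∀ x ∈ F, σ x = x) → ρ σ = 1 := fun σ hσ => (hF σ hσ).1
  have hquad : ∀ σ, SatisfiesQuadratic ρ d σ := by
    intro σ
    obtain ⟨ℓ, hℓ, hℓS, -, A, hA, τ, hτ, m, j, a, -, -, -, -, ha⟩ :=
      Chebotarev.exists_isFrobeniusAt_pow F σ (N * p).primeFactors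
    have hpow := SatisfiesQuadratic.pow ⟨_, hrelFrob ℓ hℓ (by simpa [hS] using hℓS) A hA τ hτ⟩ a
    have e := Chebotarev.map_eq_of_eqOn hρF ha
    refine hpow.congr e ?_ (Chebotarev.map_eq_of_eqOn (fun γ hγ => (hF γ hγ).2) ha)
    calc ρ σ⁻¹ = ρ σ⁻¹ * (ρ (τ ^ a) * ρ (τ ^ a)⁻¹) := by
          rw [← map_mul, ← map_mul, mul_inv_cancel, mul_one]
      _ = ρ σ⁻¹ * ρ σ * ρ (τ ^ a)⁻¹ := by rw [← mul_assoc, e]
      _ = ρ (τ ^ a)⁻¹ := by rw [← map_mul, inv_mul_cancel, map_one, one_mul]
  obtain ⟨R, hRt, hRd, hRk⟩ := exists_quadraticRep ρ d hquad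
  refine ⟨{ V := Fin 2 → k
            finrank_eq := Module.finrank_fin_fun k
            ρ := (Matrix.toLinAlgEquiv' (R := k) (n := Fin 2)).toAlgHom.toMonoidHom.comp
              (ι.mapMatrix.toMonoidHom.comp R)
            factorsThroughFiniteLevel := ⟨F, hFfin, fun σ hσ => by
              simp [hRk σ (hρF σ hσ) (hF σ hσ).2]⟩ }, fun ℓ hℓ hℓN hℓk A hA σ hσ => ?_,
    fun ℓ hℓ hℓNp A hA σ hσ => ?_⟩
  · have hℓp : ℓ ≠ p := fun h => hℓk (by rw [h]; exact CharP.cast_eq_zero k p)
    have hℓS : ℓ ∉ S := fun h => by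
      rcases (Nat.Prime.dvd_mul hℓ).1 ((hmemS ℓ hℓ).1 h) with h' | h'
      · exact hℓN h'
      · exact hℓp ((Nat.prime_dvd_prime_iff_eq hℓ hp).1 h')
    refine ⟨_, hχg ℓ hℓ hℓN hℓS, ?_⟩
    have htr : (R σ).trace = Ideal.Quotient.mk (RingHom.ker φ)
        (χg (CuspForm.heckeAlgebra.T hℓ hℓN hℓS)) :=
      smul_left_injective (Z̄ ⧸ RingHom.ker φ) (one_ne_zero (α := Module.End _ V))
        ((hRt σ).symm.trans (hrelFrob ℓ hℓ hℓS A hA σ hσ))
    have hdet : (R σ).det = (ℓ : Z̄ ⧸ RingHom.ker φ) := (hRd σ).trans (hfrobd ℓ hℓ hℓp A hA σ hσ)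
    show LinearMap.charpoly (Matrix.toLinAlgEquiv' ((R σ).map ι)) = _
    rw [← LinearMap.charpoly_toMatrix _ (Pi.basisFun k (Fin 2))]
    rw [show LinearMap.toMatrix (Pi.basisFun k (Fin 2)) (Pi.basisFun k (Fin 2))
      (Matrix.toLinAlgEquiv' ((R σ).map ι)) = (R σ).map ι from by
        rw [LinearMap.toMatrix_eq_toMatrix']; exact LinearMap.toMatrix'_toLin' _]
    rw [Matrix.charpoly_map, Matrix.charpoly_fin_two, htr, hdet]
    simp only [Polynomial.map_add, Polynomial.map_sub, Polynomial.map_mul, Polynomial.map_pow,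
      map_X, map_C, Polynomial.map_natCast, map_natCast]
    rfl
  · have hr1 : ρ σ = 1 := hunr ℓ hℓ hℓNp A hA σ hσ
    have hd1 : d σ = 1 := by
      have := GaloisBasics.modularCyclotomicCharacter_inertia hA hℓ (card_rootsOfUnity_qbar p)
        (fun h => hℓNp (h.mul_left N)) hσ
      simp [d, cycloChar, this]
    show Matrix.toLinAlgEquiv' ((R σ).map ι) = 1
    rw [hRk σ hr1 hd1, Matrix.map_one _ (map_zero ι) (map_one ι), map_one]

end Fermat.Agent.EigenRep
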