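import Fermat.Agent.EigenRep.Residual
import Fermat.Agent.HeckeAlg.S42FromS29
import Fermat.Agent.ECTorsion.Galois
import Fermat.Agent.FreyModel.Basic

/-!
# Residual representations and Frey curves, from Galois actions on parabolic characters

Given Galois actions on parabolic characters, every weight-two eigenform has residual Galois
representations; for a Frey package of exponent `p`, those above `p` factor through a finite
Galois extension of `ℚ` through which the mod `p` representation of the Frey curve also factors.
-/

noncomputable section

open scoped WeierstrassCurve.Affine

namespace Fermat.Agent.EigenRep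

/-- Eigenforms have residual representations, given the Galois action for every level and prime. -/
theorem residualRepOfEigenform
    (hact : ∀ (N p : ℕ), N ≠ 0 → p.Prime → HasParabolicGaloisAction N p) :
    HeckeAlg.ResidualRepOfEigenform :=
  fun hg p hp _ _ _ φ => exists_residualRep hg hp (fun hN => hact _ p hN hp) φ

/-- The Frey curve is nonsingular. -/
lemma freyCurve_Δ_ne_zero (P : FreyPackage) : P.freyCurve.Δ ≠ 0 := by
  rw [← FreyModel.map_freyCurveInt P, WeierstrassCurve.map_Δ]
  simpa using FreyModel.freyCurveInt_Δ_ne_zero P

/-- Residual representations of level `M` eigenforms above the exponent of a Frey package share a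
finite level with the mod `p` representation of the Frey curve. -/
theorem eigenformResidualAttachmentAt (P : FreyPackage)
    (hact : ∀ (N p : ℕ), N ≠ 0 → p.Prime → HasParabolicGaloisAction N p) (M : ℕ) :
    P.EigenformResidualAttachmentAt M :=
  HeckeAlg.eigenformResidualAttachmentAt (residualRepOfEigenform hact) P
    (ECTorsion.finite_torsionBy_rat P.freyCurve (freyCurve_Δ_ne_zero P) P.hp0) M

end Fermat.Agent.EigenRep
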